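import Fermat.Agent.S15.H946.HopfE
import Fermat.Agent.S15.H975.DescSpec

/-!
# S15 / DESC / leaf T1 (HOPF-E) in the EXACT skeleton shape  (helper946)

    theorem t1 : H975.T1Statement

`M := Ex r x` with `x := r y` (`Ex.lean`), `act := actE`, `ι := iot`, `y' := ptE y`; the Hopf model
is `hopfModel_Ex` (`HopfE.lean`).  Sorry-free.
-/

set_option autoImplicit false

noncomputable section

open ModularCurve

namespace Fermat.Agent.S15.H946

open Fermat.Agent.S15.H975

/-- `J₀(p)[r]` in the skeleton's form is `torsionBy ℤ J r`. -/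
def torsToTorsionBy (p : ℕ) [NeZero p] (r : ℕ) :
    ↥(tors p r) →+ Submodule.torsionBy ℤ (JZero p) (r : ℤ) where
  toFun w := ⟨(w : JZero p), by
    rw [Submodule.mem_torsionBy_iff, natCast_zsmul]
    exact w.2⟩
  map_zero' := rfl
  map_add' _ _ := rfl

theorem torsToTorsionBy_injective (p : ℕ) [NeZero p] (r : ℕ) :
    Function.Injective (torsToTorsionBy p r) := by
  intro w w' h
  exact Subtype.ext (congrArg (fun t : Submodule.torsionBy ℤ (JZero p) (r : ℤ) => (t : JZero p)) h)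

/-- `ℓ · pt y = 0` in `E_x`. -/
theorem nsmul_ptE {J : Type} [AddCommGroup J] (ℓ : ℕ) (x : J) (y : J) (hy : (ℓ : ℤ) • y = x) :
    ℓ • ptE ℓ x y hy = 0 := by
  have h1 : ℓ • ptE ℓ x y hy = QuotientAddGroup.mk (genE ℓ x) := by
    unfold ptE mkE
    rw [← QuotientAddGroup.mk_nsmul]
    refine congrArg _ (Subtype.ext ?_)
    refine Prod.ext ?_ ?_
    · show ℓ • y = x
      rw [← hy, natCast_zsmul]
    · show ℓ • (1 : ℤ) = (ℓ : ℤ)
      simp
  rw [h1]
  exact (QuotientAddGroup.eq_zero_iff _).2 (AddSubgroup.mem_zmultiples _)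

/-- **Leaf T1 (HOPF-E)**, verbatim. -/
theorem t1 : T1Statement := by
  intro p _ hp r hr hrp y hy
  have : Fact r.Prime := ⟨hr⟩
  have hrN : ¬ r ∣ p := fun h => hrp ((Nat.prime_dvd_prime_iff_eq hr hp).1 h)
  have hx : ∀ σ : Fermat.Agent.S19.GalQ, σ • ((r : ℤ) • y) = (r : ℤ) • y := by
    intro σ
    rw [natCast_zsmul]
    exact hy σ
  have hfin : Finite (Ex r ((r : ℤ) • y)) := finite_Ex_JZero p r _
  refine ⟨Ex r ((r : ℤ) • y), inferInstance, hfin, fun σ => ⇑(actE r ((r : ℤ) • y) hx σ),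
    (iot r ((r : ℤ) • y)).comp (torsToTorsionBy p r), ptE r ((r : ℤ) • y) y rfl,
    isContAddAction_Ex p r _ hx, hopfModel_Ex p r _ hx hrN,
    (iot_injective r _).comp (torsToTorsionBy_injective p r), nsmul_ptE r _ y rfl,
    ?_, ?_, ?_, ?_⟩
  · rintro j ⟨w, hw⟩
    have h := congrArg (kap r ((r : ℤ) • y)) hw
    rw [AddMonoidHom.comp_apply, kap_iot, map_nsmul, kap_ptE, nsmul_one] at h
    exact (ZMod.natCast_eq_zero_iff j r).1 h.symm
  · intro m
    obtain ⟨w, hw⟩ := exists_eq_iot_add r ((r : ℤ) • y) y rfl m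
    have hwmem : (w : JZero p) ∈ tors p r := by
      show r • (w : JZero p) = 0
      have h := (Submodule.mem_torsionBy_iff _ _).1 w.2
      rwa [natCast_zsmul] at h
    have e1 : ((iot r ((r : ℤ) • y)).comp (torsToTorsionBy p r)) ⟨(w : JZero p), hwmem⟩ =
        iot r ((r : ℤ) • y) w := rfl
    have e2 : (((kap r ((r : ℤ) • y) m).val : ℤ)) • ptE r ((r : ℤ) • y) y rfl =
        (kap r ((r : ℤ) • y) m).val • ptE r ((r : ℤ) • y) y rfl := natCast_zsmul _ _
    refine ⟨(kap r ((r : ℤ) • y) m).val, ⟨(w : JZero p), hwmem⟩, ?_⟩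
    rw [e1, ← e2, add_comm]
    exact hw
  · intro σ w w' hww'
    show actE r ((r : ℤ) • y) hx σ (iot r ((r : ℤ) • y) (torsToTorsionBy p r w)) = _
    rw [actE_iot]
    exact congrArg (iot r ((r : ℤ) • y)) (Subtype.ext hww'.symm)
  · intro σ w hw
    show actE r ((r : ℤ) • y) hx σ (ptE r ((r : ℤ) • y) y rfl) = _
    rw [actE_ptE]
    exact congrArg (fun t => ptE r ((r : ℤ) • y) y rfl + iot r ((r : ℤ) • y) t)
      (Subtype.ext hw.symm)

end Fermat.Agent.S15.H946
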