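import Mathlib

/-!
# S15 / DESC / T1 HOPF-E — the extension `E_x` of `ℤ/ℓ` by `J[ℓ]`  (helper946)

For an abelian group `J` with an action of a group `G`, a `G`-fixed point `x` and `ℓ ≠ 0`:

    E_x := { (s, a) ∈ J × ℤ : ℓ s = a x } / ⟨(x, ℓ)⟩ .

It is an extension `0 → J[ℓ] → E_x → ℤ/ℓ` of `G`-modules (`ι`, `κ`), onto if `x ∈ ℓ J`; for
`ℓ y = x` the class `pt y` of `(y, 1)` lies over `1` and `σ (pt y) - pt y = ι (σ y - y)`: the class
of the extension is the Kummer class of `x`.  (If `x` has infinite order this is `(J[ℓ] + ℤy)/ℤx`.)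

`rep : E_x → J` is the set-theoretic section `[(s, a)] ↦ s - ⌊a/ℓ⌋ x` (`ℓ · rep m = (κ m).val x`);
it is additive up to the carry: `rep (m + m') = rep m + rep m' - ⌊(κ m + κ m')/ℓ⌋ x`.

Mathlib only; sorry-free.
-/

set_option autoImplicit false

noncomputable section

namespace Fermat.Agent.S15.H946

variable {J : Type} [AddCommGroup J] (ℓ : ℕ) (x : J)

/-- The pairs `(s, a)` with `ℓ s = a x`. -/
def preE : AddSubgroup (J × ℤ) where
  carrier := {p | (ℓ : ℤ) • p.1 = p.2 • x}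
  zero_mem' := by simp
  add_mem' := by
    intro p q hp hq
    simp only [Set.mem_ofPred_eq, Prod.fst_add, Prod.snd_add, smul_add, add_smul] at *
    rw [hp, hq]
  neg_mem' := by
    intro p hp
    simp only [Set.mem_ofPred_eq, Prod.fst_neg, Prod.snd_neg, smul_neg, neg_smul] at *
    rw [hp]

theorem mem_preE (p : J × ℤ) : p ∈ preE ℓ x ↔ (ℓ : ℤ) • p.1 = p.2 • x := Iff.rfl

/-- The generator `(x, ℓ)` of the relations. -/
def genE : preE ℓ x := ⟨(x, (ℓ : ℤ)), rfl⟩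

/-- **The extension `E_x`.** -/
abbrev Ex : Type := preE ℓ x ⧸ AddSubgroup.zmultiples (genE ℓ x)

/-- The class of a pair. -/
def mkE (s : J) (a : ℤ) (h : (ℓ : ℤ) • s = a • x) : Ex ℓ x :=
  QuotientAddGroup.mk (⟨(s, a), h⟩ : preE ℓ x)

theorem mkE_surjective (m : Ex ℓ x) : ∃ s a h, mkE ℓ x s a h = m := by
  obtain ⟨⟨⟨s, a⟩, h⟩, rfl⟩ := QuotientAddGroup.mk_surjective m
  exact ⟨s, a, h, rfl⟩

theorem mkE_add (s s' : J) (a a' : ℤ) (h : (ℓ : ℤ) • s = a • x) (h' : (ℓ : ℤ) • s' = a' • x) :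
    mkE ℓ x s a h + mkE ℓ x s' a' h' =
      mkE ℓ x (s + s') (a + a') (by rw [smul_add, add_smul, h, h']) := rfl

theorem mkE_eq_iff (s s' : J) (a a' : ℤ) (h : (ℓ : ℤ) • s = a • x) (h' : (ℓ : ℤ) • s' = a' • x) :
    mkE ℓ x s a h = mkE ℓ x s' a' h' ↔ ∃ n : ℤ, s' = s + n • x ∧ a' = a + n * ℓ := by
  unfold mkE
  rw [QuotientAddGroup.eq, AddSubgroup.mem_zmultiples_iff]
  constructor
  · rintro ⟨n, hn⟩
    have h1 := congrArg (fun p : preE ℓ x => (p : J × ℤ).1) hn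
    have h2 := congrArg (fun p : preE ℓ x => (p : J × ℤ).2) hn
    simp only [genE, AddSubgroup.coe_zsmul, Prod.smul_fst, Prod.smul_snd, AddSubgroup.coe_add,
      AddSubgroup.coe_neg, Prod.fst_add, Prod.snd_add, Prod.fst_neg, Prod.snd_neg,
      smul_eq_mul] at h1 h2
    refine ⟨n, ?_, ?_⟩
    · rw [h1]; abel
    · rw [h2]; ring
  · rintro ⟨n, h1, h2⟩
    refine ⟨n, Subtype.ext ?_⟩
    simp only [genE, AddSubgroup.coe_zsmul, AddSubgroup.coe_add, AddSubgroup.coe_neg]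
    refine Prod.ext ?_ ?_
    · simp only [Prod.smul_fst, Prod.fst_add, Prod.fst_neg]
      rw [h1]; abel
    · simp only [Prod.smul_snd, Prod.snd_add, Prod.snd_neg, smul_eq_mul]
      rw [h2]; ring

/-! ### The projection to `ℤ/ℓ` -/

/-- The projection `κ : E_x → ℤ/ℓ`. -/
def kap : Ex ℓ x →+ ZMod ℓ :=
  QuotientAddGroup.lift _
    ((Int.castAddHom (ZMod ℓ)).comp ((AddMonoidHom.snd J ℤ).comp (preE ℓ x).subtype))
    (by
      rw [AddSubgroup.zmultiples_le]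
      show ((Int.castAddHom (ZMod ℓ)).comp ((AddMonoidHom.snd J ℤ).comp (preE ℓ x).subtype))
        (genE ℓ x) = 0
      simp [genE])

@[simp] theorem kap_mkE (s : J) (a : ℤ) (h : (ℓ : ℤ) • s = a • x) :
    kap ℓ x (mkE ℓ x s a h) = (a : ZMod ℓ) := rfl

/-! ### The representatives -/

variable [NeZero ℓ]

/-- The representative `s - ⌊a/ℓ⌋ x` of the class of `(s, a)`. -/
def rep : Ex ℓ x → J :=
  Quotient.lift (fun p : preE ℓ x => (p : J × ℤ).1 - ((p : J × ℤ).2 / (ℓ : ℤ)) • x) (by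
    rintro ⟨⟨s, a⟩, h⟩ ⟨⟨s', a'⟩, h'⟩ hr
    have hr' : mkE ℓ x s a h = mkE ℓ x s' a' h' := Quotient.sound hr
    obtain ⟨n, h1, h2⟩ := (mkE_eq_iff ℓ x s s' a a' h h').1 hr'
    have hℓ : (ℓ : ℤ) ≠ 0 := by exact_mod_cast NeZero.ne ℓ
    show s - (a / (ℓ : ℤ)) • x = s' - (a' / (ℓ : ℤ)) • x
    rw [h1, h2, Int.add_mul_ediv_right _ _ hℓ, add_smul]
    abel)

@[simp] theorem rep_mkE (s : J) (a : ℤ) (h : (ℓ : ℤ) • s = a • x) :
    rep ℓ x (mkE ℓ x s a h) = s - (a / (ℓ : ℤ)) • x := rfl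

/-- `ℓ · rep m = (κ m).val · x`. -/
theorem smul_rep (m : Ex ℓ x) : (ℓ : ℤ) • rep ℓ x m = ((kap ℓ x m).val : ℤ) • x := by
  obtain ⟨s, a, h, rfl⟩ := mkE_surjective ℓ x m
  rw [rep_mkE, kap_mkE, smul_sub, h, smul_smul, ZMod.val_intCast, ← sub_smul]
  congr 1
  have := Int.mul_ediv_add_emod a (ℓ : ℤ)
  linarith

/-- The carry constant. -/
def carry (j j' : ZMod ℓ) : J := -((((j.val + j'.val) / ℓ : ℕ) : ℤ) • x)

/-- **`rep` is additive up to the carry.** -/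
theorem rep_add (m m' : Ex ℓ x) :
    rep ℓ x (m + m') = rep ℓ x m + rep ℓ x m' + carry ℓ x (kap ℓ x m) (kap ℓ x m') := by
  obtain ⟨s, a, h, rfl⟩ := mkE_surjective ℓ x m
  obtain ⟨s', a', h', rfl⟩ := mkE_surjective ℓ x m'
  rw [mkE_add, rep_mkE, rep_mkE, rep_mkE, kap_mkE, kap_mkE, carry]
  have hℓ : (ℓ : ℤ) ≠ 0 := by exact_mod_cast NeZero.ne ℓ
  have hℓ' : (0 : ℤ) < ℓ := by exact_mod_cast Nat.pos_of_ne_zero (NeZero.ne ℓ)
  have key : (a + a') / (ℓ : ℤ) =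
      a / (ℓ : ℤ) + a' / (ℓ : ℤ) + (((((a : ZMod ℓ).val + (a' : ZMod ℓ).val) / ℓ : ℕ)) : ℤ) := by
    have e1 := Int.mul_ediv_add_emod a (ℓ : ℤ)
    have e2 := Int.mul_ediv_add_emod a' (ℓ : ℤ)
    have hsum : a + a' = (a % (ℓ : ℤ) + a' % (ℓ : ℤ)) + (a / (ℓ : ℤ) + a' / (ℓ : ℤ)) * ℓ := by
      linarith
    rw [hsum, Int.add_mul_ediv_right _ _ hℓ]
    push_cast
    rw [ZMod.val_intCast, ZMod.val_intCast]
    ring
  rw [key, add_smul, add_smul]
  abel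

/-- Grading and representative determine the element. -/
theorem eq_of_kap_rep {m m' : Ex ℓ x} (hk : kap ℓ x m = kap ℓ x m')
    (hr : rep ℓ x m = rep ℓ x m') : m = m' := by
  obtain ⟨s, a, h, rfl⟩ := mkE_surjective ℓ x m
  obtain ⟨s', a', h', rfl⟩ := mkE_surjective ℓ x m'
  rw [kap_mkE, kap_mkE] at hk
  rw [rep_mkE, rep_mkE] at hr
  rw [mkE_eq_iff]
  have hmod : a % (ℓ : ℤ) = a' % (ℓ : ℤ) := (ZMod.intCast_eq_intCast_iff' a a' ℓ).1 hk
  have e1 := Int.mul_ediv_add_emod a (ℓ : ℤ)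
  have e2 := Int.mul_ediv_add_emod a' (ℓ : ℤ)
  refine ⟨a' / (ℓ : ℤ) - a / (ℓ : ℤ), ?_, ?_⟩
  · rw [sub_smul]
    have : s' = s - (a / (ℓ : ℤ)) • x + (a' / (ℓ : ℤ)) • x := by rw [hr]; abel
    rw [this]; abel
  · linarith

/-! ### The subgroup `J[ℓ]` -/

/-- The inclusion `ι : J[ℓ] → E_x`. -/
def iot : (Submodule.torsionBy ℤ J (ℓ : ℤ)) →+ Ex ℓ x where
  toFun w := mkE ℓ x (w : J) 0 (by
    rw [zero_smul]
    exact (Submodule.mem_torsionBy_iff _ _).1 w.2)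
  map_zero' := rfl
  map_add' _ _ := rfl

omit [NeZero ℓ] in
@[simp] theorem kap_iot (w : Submodule.torsionBy ℤ J (ℓ : ℤ)) : kap ℓ x (iot ℓ x w) = 0 := by
  simp [iot]

@[simp] theorem rep_iot (w : Submodule.torsionBy ℤ J (ℓ : ℤ)) : rep ℓ x (iot ℓ x w) = (w : J) := by
  simp [iot]

theorem iot_injective : Function.Injective (iot ℓ x) := by
  intro w w' h
  have := congrArg (rep ℓ x) h
  rw [rep_iot, rep_iot] at this
  exact Subtype.ext this

/-- Exactness in the middle: the kernel of `κ` is the image of `ι`. -/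
theorem exists_iot_of_kap_eq_zero {m : Ex ℓ x} (h : kap ℓ x m = 0) :
    ∃ w, iot ℓ x w = m := by
  have h1 := smul_rep ℓ x m
  rw [h, ZMod.val_zero] at h1
  simp only [Nat.cast_zero, zero_smul] at h1
  refine ⟨⟨rep ℓ x m, (Submodule.mem_torsionBy_iff _ _).2 h1⟩, ?_⟩
  apply eq_of_kap_rep
  · rw [kap_iot, h]
  · rw [rep_iot]

omit [NeZero ℓ] in
/-- The point over `1` attached to a division point `y` of `x`. -/
def ptE (y : J) (hy : (ℓ : ℤ) • y = x) : Ex ℓ x := mkE ℓ x y 1 (by rw [one_smul, hy])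

omit [NeZero ℓ] in
@[simp] theorem kap_ptE (y : J) (hy : (ℓ : ℤ) • y = x) : kap ℓ x (ptE ℓ x y hy) = 1 := by
  simp [ptE]

/-- Every element is `ι w + j · pt y`. -/
theorem exists_eq_iot_add (y : J) (hy : (ℓ : ℤ) • y = x) (m : Ex ℓ x) :
    ∃ w, m = iot ℓ x w + ((kap ℓ x m).val : ℤ) • ptE ℓ x y hy := by
  have h0 : kap ℓ x (m - ((kap ℓ x m).val : ℤ) • ptE ℓ x y hy) = 0 := by
    rw [map_sub, map_zsmul, kap_ptE]
    simp
  obtain ⟨w, hw⟩ := exists_iot_of_kap_eq_zero ℓ x h0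
  exact ⟨w, by rw [hw]; abel⟩

/-! ### Finiteness -/

theorem finite_Ex [Finite (Submodule.torsionBy ℤ J (ℓ : ℤ))] : Finite (Ex ℓ x) := by
  classical
  -- a section of `κ` on its range
  let sec : ZMod ℓ → Ex ℓ x := fun j => if h : ∃ m, kap ℓ x m = j then h.choose else 0
  have hsec : ∀ m, kap ℓ x (sec (kap ℓ x m)) = kap ℓ x m := by
    intro m
    have h : ∃ m', kap ℓ x m' = kap ℓ x m := ⟨m, rfl⟩
    simp only [sec, dif_pos h]
    exact h.choose_spec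
  have hmem : ∀ m, rep ℓ x m - rep ℓ x (sec (kap ℓ x m)) ∈ Submodule.torsionBy ℤ J (ℓ : ℤ) := by
    intro m
    rw [Submodule.mem_torsionBy_iff, smul_sub, smul_rep, smul_rep, hsec, sub_self]
  have : Finite (ZMod ℓ) := by
    have : Fintype (ZMod ℓ) := ZMod.fintype ℓ
    infer_instance
  refine Finite.of_injective
    (fun m => ((kap ℓ x m, ⟨_, hmem m⟩) : ZMod ℓ × Submodule.torsionBy ℤ J (ℓ : ℤ))) ?_
  intro m m' h
  have hk : kap ℓ x m = kap ℓ x m' := congrArg Prod.fst h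
  have hr := congrArg (fun p : ZMod ℓ × Submodule.torsionBy ℤ J (ℓ : ℤ) => (p.2 : J)) h
  simp only [hk] at hr
  exact eq_of_kap_rep ℓ x hk (sub_left_injective hr)

/-! ### The action -/

section Action

variable {G : Type} [Group G] [DistribMulAction G J] (hx : ∀ σ : G, σ • x = x)

include hx in
omit [NeZero ℓ] in
theorem smul_mem_preE (σ : G) (p : J × ℤ) (hp : p ∈ preE ℓ x) : (σ • p.1, p.2) ∈ preE ℓ x := by
  rw [mem_preE] at hp ⊢
  show (ℓ : ℤ) • σ • p.1 = p.2 • x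
  rw [← smul_comm σ, hp, smul_comm σ, hx]

omit [NeZero ℓ] in
/-- The action of `σ` on pairs. -/
def preAct (σ : G) : preE ℓ x →+ preE ℓ x where
  toFun p := ⟨(σ • (p : J × ℤ).1, (p : J × ℤ).2), smul_mem_preE ℓ x hx σ p p.2⟩
  map_zero' := Subtype.ext (by simp)
  map_add' p q := Subtype.ext (by simp [smul_add])

omit [NeZero ℓ] in
/-- **The action of `G` on `E_x`.** -/
def actE (σ : G) : Ex ℓ x →+ Ex ℓ x :=
  QuotientAddGroup.map _ _ (preAct ℓ x hx σ) (by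
    rw [AddSubgroup.zmultiples_le]
    show preAct ℓ x hx σ (genE ℓ x) ∈ AddSubgroup.zmultiples (genE ℓ x)
    have : preAct ℓ x hx σ (genE ℓ x) = genE ℓ x := Subtype.ext (by
      show (σ • x, (ℓ : ℤ)) = (x, (ℓ : ℤ))
      rw [hx])
    rw [this]
    exact AddSubgroup.mem_zmultiples _)

omit [NeZero ℓ] in
@[simp] theorem actE_mkE (σ : G) (s : J) (a : ℤ) (h : (ℓ : ℤ) • s = a • x) :
    actE ℓ x hx σ (mkE ℓ x s a h) =
      mkE ℓ x (σ • s) a (smul_mem_preE ℓ x hx σ (s, a) h) := rfl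

omit [NeZero ℓ] in
theorem actE_one (m : Ex ℓ x) : actE ℓ x hx 1 m = m := by
  obtain ⟨s, a, h, rfl⟩ := mkE_surjective ℓ x m
  rw [actE_mkE]
  congr 1
  exact one_smul G s

omit [NeZero ℓ] in
theorem actE_mul (σ τ : G) (m : Ex ℓ x) :
    actE ℓ x hx (σ * τ) m = actE ℓ x hx σ (actE ℓ x hx τ m) := by
  obtain ⟨s, a, h, rfl⟩ := mkE_surjective ℓ x m
  rw [actE_mkE, actE_mkE, actE_mkE]
  congr 1
  exact mul_smul σ τ s

omit [NeZero ℓ] in
@[simp] theorem kap_actE (σ : G) (m : Ex ℓ x) : kap ℓ x (actE ℓ x hx σ m) = kap ℓ x m := by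
  obtain ⟨s, a, h, rfl⟩ := mkE_surjective ℓ x m
  rw [actE_mkE, kap_mkE, kap_mkE]

@[simp] theorem rep_actE (σ : G) (m : Ex ℓ x) : rep ℓ x (actE ℓ x hx σ m) = σ • rep ℓ x m := by
  obtain ⟨s, a, h, rfl⟩ := mkE_surjective ℓ x m
  rw [actE_mkE, rep_mkE, rep_mkE, smul_sub, smul_comm σ, hx]

/-- If `σ` fixes the representative, it fixes the element. -/
theorem actE_eq_self_of_rep {σ : G} {m : Ex ℓ x} (h : σ • rep ℓ x m = rep ℓ x m) :
    actE ℓ x hx σ m = m :=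
  eq_of_kap_rep ℓ x (kap_actE ℓ x hx σ m) (by rw [rep_actE, h])

omit [NeZero ℓ] in
/-- `ι` is equivariant. -/
theorem actE_iot (σ : G) (w : Submodule.torsionBy ℤ J (ℓ : ℤ)) :
    actE ℓ x hx σ (iot ℓ x w) = iot ℓ x ⟨σ • (w : J), by
      rw [Submodule.mem_torsionBy_iff, smul_comm, (Submodule.mem_torsionBy_iff _ _).1 w.2,
        smul_zero]⟩ := rfl

omit [NeZero ℓ] in
/-- **The class of the extension is the Kummer class of `x`.** -/
theorem actE_ptE (σ : G) (y : J) (hy : (ℓ : ℤ) • y = x) :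
    actE ℓ x hx σ (ptE ℓ x y hy) = ptE ℓ x y hy + iot ℓ x ⟨σ • y - y, by
      rw [Submodule.mem_torsionBy_iff, smul_sub, smul_comm, hy, hx, sub_self]⟩ := by
  unfold ptE iot
  simp only [actE_mkE, AddMonoidHom.coe_mk, ZeroHom.coe_mk]
  rw [mkE_add]
  congr 1
  abel

end Action

end Fermat.Agent.S15.H946
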