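import Fermat.Agent.S15.H946.TorsorLocal
import Fermat.Agent.S15.H946.Ex
import Fermat.Agent.A3.H615.GrFinal
import Fermat.Agent.S17.H680.Cusp

/-!
# S15 / DESC / T1 HOPF-E — the Hopf model of `E_x`  (helper946)

For a level `N`, a prime `ℓ ∤ N` and a RATIONAL point `x ∈ J₀(N)(ℚ)`:

    hopfModel_Ex : S19.HopfModel ℓ (Ex ℓ x) (actE ℓ x hx)

i.e. the extension `E_x` of `ℤ/ℓ` by `J₀(N)[ℓ]` whose class is the Kummer class of `x`
(`Ex.lean`) is, Galois-equivariantly, the group of `ℚ̄`-points of a finite flat commutative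
cocommutative Hopf algebra over `ℤ_(ℓ)`: "Kummer classes of rational points are FLAT at `ℓ`".

Chain: `torsorLocal` (T1-ABS, `TorsorLocal.lean`) at a good level (`ℓ ≥ 5`: `N`; `ℓ = 2`: `3N`,
`ℓ = 3`: `2N`, via the conorm `A3.H319.levelPull`) with the good-reduction datum
`A3.H615.grStatement`  ⟹  `S19.LocalCoordDatum`  ⟹ (UNR, `S19.H679`)  `CoordDatum`
⟹  `OrderDatum`  ⟹ (ORD, `S19.H15`)  `HopfModel`.

Sorry-free.
-/

set_option autoImplicit false

noncomputable section

open AlgebraicCurve ModularCurve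

namespace Fermat.Agent.S15.H946

open Fermat.Agent.S19 Fermat.Agent.A3.H799

/-! ### Open stabilisers of division points of rational points -/

section FiniteLevel

variable (F₀ : IntermediateField ℚ (LaurentSeries ℚ))

/-- A Galois element fixing the divisor `X` and the function `f` with `n D - X = div f`, `n ≠ 0`,
fixes the class of `D`. -/
theorem smul_mk_eq_of_fixes_sub (σ : AlgebraicClosure ℚ ≃ₐ[ℚ] AlgebraicClosure ℚ)
    (D : Divisor.degZero (K := AlgebraicClosure ℚ)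
      (F := laurentBaseChange (AlgebraicClosure ℚ) F₀))
    {n : ℤ} (hn : n ≠ 0) (X : Divisor (AlgebraicClosure ℚ)
      (laurentBaseChange (AlgebraicClosure ℚ) F₀))
    (hX : arithmeticGalois F₀ σ • X = X)
    (f : laurentBaseChange (AlgebraicClosure ℚ) F₀)
    (hD : ∀ v : Place (AlgebraicClosure ℚ) (laurentBaseChange (AlgebraicClosure ℚ) F₀),
      n * (D : Divisor _ _) v - X v = v.ord f)
    (hσ : coeffMap (σ : AlgebraicClosure ℚ →+* AlgebraicClosure ℚ)
      (f : LaurentSeries (AlgebraicClosure ℚ)) = f) :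
    σ • (Pic0.mk D) = Pic0.mk D := by
  set g := arithmeticGalois F₀ σ with hg
  have hgf : g • f = f := Subtype.ext (by rw [coe_arithmeticGalois_smul, hσ])
  have hgf' : g⁻¹ • f = f := by
    conv_lhs => rw [← hgf]
    exact inv_smul_smul g f
  rw [galois_smul_pic0_def, SemilinearAut.pic0_smul_mk]
  refine congrArg Pic0.mk (Subtype.ext ?_)
  rw [SemilinearAut.coe_degZeroSMulHom]
  ext w
  rw [SemilinearAut.divisor_smul_apply]
  have h1 := hD (g⁻¹ • w)
  have h2 := hD w
  have h3 : (g⁻¹ • w).ord f = w.ord f := by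
    have := SemilinearAut.ord_smul g⁻¹ w f
    rwa [hgf'] at this
  have h4 : X (g⁻¹ • w) = X w := by
    have := congrArg (fun Y : Divisor _ _ => Y w) hX
    simp only [SemilinearAut.divisor_smul_apply] at this
    exact this
  rw [h3, ← h2, h4] at h1
  have h5 : n * (D : Divisor _ _) (g⁻¹ • w) = n * (D : Divisor _ _) w := by linarith
  exact mul_left_cancel₀ hn h5

/-- **FINLEVEL for division points.**  If `n • s` (`n ≠ 0`) is the class of a Galois-invariant
divisor, then `s` is fixed by `Gal(ℚ̄/L)` for some finite extension `L/ℚ`. -/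
theorem exists_finiteLevel_of_zsmul_eq_mk
    (s : Pic0 (AlgebraicClosure ℚ) (laurentBaseChange (AlgebraicClosure ℚ) F₀))
    {n : ℤ} (hn : n ≠ 0)
    (X : Divisor.degZero (K := AlgebraicClosure ℚ)
      (F := laurentBaseChange (AlgebraicClosure ℚ) F₀))
    (hX : ∀ σ : AlgebraicClosure ℚ ≃ₐ[ℚ] AlgebraicClosure ℚ,
      arithmeticGalois F₀ σ •
        (X : Divisor (AlgebraicClosure ℚ) (laurentBaseChange (AlgebraicClosure ℚ) F₀)) = X)
    (hs : n • s = Pic0.mk X) :
    ∃ L : IntermediateField ℚ (AlgebraicClosure ℚ), FiniteDimensional ℚ L ∧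
      ∀ σ : AlgebraicClosure ℚ ≃ₐ[ℚ] AlgebraicClosure ℚ, (∀ a ∈ L, σ a = a) → σ • s = s := by
  obtain ⟨D, rfl⟩ := Pic0.mk_surjective s
  have h0 : Pic0.mk (n • D - X) = 0 := by
    have h1 : Pic0.mk (n • D - X) = Pic0.mk (n • D) - Pic0.mk X :=
      map_sub (QuotientAddGroup.mk' _) (n • D) X
    have h2 : Pic0.mk (n • D) = n • Pic0.mk D :=
      map_zsmul (QuotientAddGroup.mk' _) n D
    rw [h1, h2, hs, sub_self]
  have h1 : ((n • D - X : Divisor.degZero (K := AlgebraicClosure ℚ)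
      (F := laurentBaseChange (AlgebraicClosure ℚ) F₀)) : Divisor _ _)
      ∈ Divisor.principal (K := AlgebraicClosure ℚ)
        (F := laurentBaseChange (AlgebraicClosure ℚ) F₀) := by
    have := (QuotientAddGroup.eq_zero_iff _).mp h0
    exact AddSubgroup.mem_addSubgroupOf.mp this
  obtain ⟨f, -, hf⟩ := h1
  obtain ⟨L, hL, hLσ⟩ := Fermat.Agent.S29.H571.seriesFiniteLevel_of_mem (F₀ := F₀) f.2
  have hD : ∀ v : Place (AlgebraicClosure ℚ) (laurentBaseChange (AlgebraicClosure ℚ) F₀),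
      n * (D : Divisor _ _) v - (X : Divisor _ _) v = v.ord f := by
    intro v
    rw [← hf v]
    simp
  exact ⟨L, hL, fun σ hσ =>
    smul_mk_eq_of_fixes_sub F₀ σ D hn
      (X := ((X : Divisor (AlgebraicClosure ℚ) (laurentBaseChange (AlgebraicClosure ℚ) F₀))))
      (hX σ) f hD (hLσ σ hσ)⟩

end FiniteLevel

/-! ### The good level -/

/-- **Level selection.**  Every level `N` prime to `ℓ` maps, by an additive Galois-equivariant map
which is injective on `ℓ`-torsion, to a GOOD level (conorm to level `3N` if `ℓ = 2`, `2N` if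
`ℓ = 3`). -/
theorem exists_goodLevel_pull (N : ℕ) [NeZero N] (ℓ : ℕ) [hℓ : Fact ℓ.Prime] (hℓN : ¬ ℓ ∣ N) :
    ∃ (M' : ℕ) (_ : NeZero M'), ¬ ℓ ∣ M' ∧ GoodLevel M' ℓ ∧
      ∃ lp : JZero N →+ JZero M', (∀ (σ : GalQ) (s : JZero N), lp (σ • s) = σ • lp s) ∧
        ∀ s : JZero N, (ℓ : ℤ) • s = 0 → lp s = 0 → s = 0 := by
  have hprime : ℓ.Prime := hℓ.out
  have : NeZero ℓ := ⟨hprime.ne_zero⟩
  by_cases h5 : 5 ≤ ℓ
  · exact ⟨N, inferInstance, hℓN, Or.inl h5, AddMonoidHom.id _, fun _ _ => rfl,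
      fun s _ h => h⟩
  · have hℓ23 : ℓ = 2 ∨ ℓ = 3 := by
      have h2 := hprime.two_le
      have hlt : ℓ < 5 := not_le.mp h5
      interval_cases ℓ
      · exact Or.inl rfl
      · exact Or.inr rfl
      · exact absurd hprime (by decide)
    rcases hℓ23 with rfl | rfl
    · by_cases h3 : 3 ∣ N
      · exact ⟨N, inferInstance, hℓN, Or.inr (Or.inr ⟨rfl, h3⟩), AddMonoidHom.id _,
          fun _ _ => rfl, fun s _ h => h⟩
      · refine ⟨N * 3, inferInstance, ?_, Or.inr (Or.inr ⟨rfl, dvd_mul_left 3 N⟩),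
          Fermat.Agent.A3.H319.levelPull N 3,
          fun σ s => Fermat.Agent.A3.H319.levelPull_smul N 3 σ s,
          fun s hs h0 => Fermat.Agent.A3.H319.eq_zero_of_levelPull_eq_zero N 3 Nat.prime_three 2
            (by decide) (by exact_mod_cast hs) h0⟩
        intro h
        rcases (Nat.Prime.dvd_mul Nat.prime_two).mp h with h | h
        · exact hℓN h
        · exact absurd h (by decide)
    · by_cases h2 : 2 ∣ N
      · exact ⟨N, inferInstance, hℓN, Or.inr (Or.inl ⟨rfl, h2⟩), AddMonoidHom.id _,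
          fun _ _ => rfl, fun s _ h => h⟩
      · refine ⟨N * 2, inferInstance, ?_, Or.inr (Or.inl ⟨rfl, dvd_mul_left 2 N⟩),
          Fermat.Agent.A3.H319.levelPull N 2,
          fun σ s => Fermat.Agent.A3.H319.levelPull_smul N 2 σ s,
          fun s hs h0 => Fermat.Agent.A3.H319.eq_zero_of_levelPull_eq_zero N 2 Nat.prime_two 3
            (by decide) (by exact_mod_cast hs) h0⟩
        intro h
        rcases (Nat.Prime.dvd_mul Nat.prime_three).mp h with h | h
        · exact hℓN h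
        · exact absurd h (by decide)

/-! ### The Hopf model of `E_x` -/

section Main

variable (N : ℕ) [NeZero N] (ℓ : ℕ) [hℓ : Fact ℓ.Prime] (x : JZero N)
  (hx : ∀ σ : GalQ, σ • x = x)

/-- The torsor-set datum of `E_x` at a level `M'` receiving `N`. -/
def exTorsorData {M' : ℕ} (lp : JZero N →+ JZero M')
    (hinj : ∀ s : JZero N, (ℓ : ℤ) • s = 0 → lp s = 0 → s = 0) :
    TorsorData (Ex ℓ x) (AlgebraicClosure ℚ) (modularFunctionFieldBar M') where
  Q := ZMod ℓ
  κ := kap ℓ x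
  ρ := fun m => lp (rep ℓ x m)
  inj := fun m m' hk hr => eq_of_kap_rep ℓ x hk (by
    have h1 : (ℓ : ℤ) • (rep ℓ x m - rep ℓ x m') = 0 := by
      rw [zsmul_sub, smul_rep, smul_rep, hk, sub_self]
    have h2 : lp (rep ℓ x m - rep ℓ x m') = 0 := by
      rw [map_sub, hr, sub_self]
    exact sub_eq_zero.1 (hinj _ h1 h2))
  μ := fun j j' => j + j'
  κ_add := fun m m' => map_add _ m m'
  c := fun j j' => lp (carry ℓ x j j')
  ρ_add := fun m m' => by rw [rep_add, map_add, map_add]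

/-- `E_x` is finite. -/
theorem finite_Ex_JZero : Finite (Ex ℓ x) := by
  have : Finite (Submodule.torsionBy ℤ (JZero N) (ℓ : ℤ)) := by
    have h := Fermat.Agent.A3.H319.finStatement N ℓ 1
    have e : Tors N ℓ 1 = Submodule.torsionBy ℤ (JZero N) (ℓ : ℤ) := by
      show ↥(Submodule.torsionBy ℤ (JZero N) ((ℓ : ℤ) ^ 1)) = _
      rw [pow_one]
    rwa [e] at h
  exact finite_Ex ℓ x

/-- The Galois action on `E_x` is additive with open stabilisers. -/
theorem isContAddAction_Ex : IsContAddAction (fun σ : GalQ => ⇑(actE ℓ x hx σ)) := by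
  refine ⟨fun m => actE_one ℓ x hx m, fun σ τ m => actE_mul ℓ x hx σ τ m,
    fun σ m m' => map_add _ m m', fun m => ?_⟩
  -- open stabiliser of the representative
  have hℓ0 : (ℓ : ℤ) ≠ 0 := by exact_mod_cast hℓ.out.ne_zero
  have hxmem : x ∈ FixedPoints.addSubgroup
      (AlgebraicClosure ℚ ≃ₐ[ℚ] AlgebraicClosure ℚ) (JZero N) := fun σ => hx σ
  set X := Fermat.Agent.S17.H680.minDiv (Fermat.Agent.S17.H680.JZero.cusp N) x with hXdef
  have hXmk : Pic0.mk X = x := Fermat.Agent.S17.H680.mk_minDiv _ x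
  have hXσ : ∀ σ : AlgebraicClosure ℚ ≃ₐ[ℚ] AlgebraicClosure ℚ,
      arithmeticGalois (modularFunctionFieldFull N) σ •
        (X : Divisor (AlgebraicClosure ℚ) (modularFunctionFieldBar N)) = X := fun σ =>
    Fermat.Agent.S17.H680.smul_minDiv_eq _
      (Fermat.Agent.S17.H680.JZero.galois_smul_cusp N σ) (hx σ)
  set j : ℤ := ((kap ℓ x m).val : ℤ) with hj
  have hXjσ : ∀ σ : AlgebraicClosure ℚ ≃ₐ[ℚ] AlgebraicClosure ℚ,
      arithmeticGalois (modularFunctionFieldFull N) σ • ((j • X : Divisor.degZero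
        (K := AlgebraicClosure ℚ) (F := modularFunctionFieldBar N)) :
          Divisor (AlgebraicClosure ℚ) (modularFunctionFieldBar N)) =
        ((j • X : Divisor.degZero (K := AlgebraicClosure ℚ)
          (F := modularFunctionFieldBar N)) :
            Divisor (AlgebraicClosure ℚ) (modularFunctionFieldBar N)) := by
    intro σ
    rw [AddSubgroup.coe_zsmul, smul_comm, hXσ σ]
  have hs : (ℓ : ℤ) • rep ℓ x m = Pic0.mk (j • X) := by
    have h2 : Pic0.mk (j • X) = j • Pic0.mk X := map_zsmul (QuotientAddGroup.mk' _) j X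
    rw [smul_rep, h2, hXmk]
  obtain ⟨L, hL, hLσ⟩ := exists_finiteLevel_of_zsmul_eq_mk (modularFunctionFieldFull N)
    (rep ℓ x m) hℓ0 (j • X) hXjσ hs
  exact ⟨L, hL, fun σ hσ => actE_eq_self_of_rep ℓ x hx (hLσ σ hσ)⟩

/-- **Local coordinates on `E_x`** at a place above `ℓ`. -/
theorem exists_localCoordDatum_Ex (hℓN : ¬ ℓ ∣ N) :
    Nonempty (LocalCoordDatum ℓ (Ex ℓ x) (fun σ : GalQ => ⇑(actE ℓ x hx σ))) := by
  obtain ⟨M', _, hℓM', hgood, lp, hlpσ, hlpinj⟩ := exists_goodLevel_pull N ℓ hℓN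
  obtain ⟨k, _, _, Fk, _, _, 𝓡, hℓV, hI⟩ := Fermat.Agent.A3.H615.grStatement M' ℓ hℓM' hgood
  have hrank := H979.rankOneStatement ℓ 𝓡.V hℓV
  have : Finite (Ex ℓ x) := finite_Ex_JZero N ℓ x
  obtain ⟨ι, hι, Ψ, hinj, hint, heq, hadd⟩ :=
    torsorLocal (K := AlgebraicClosure ℚ) (F := modularFunctionFieldBar M') (k := k) (Fk := Fk)
      𝓡 hrank (Ex ℓ x) (exTorsorData N ℓ x lp hlpinj)
  refine ⟨{ V := 𝓡.V
            ell_mem := hℓV
            ι := ι
            fin := hι
            Ψ := Ψ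
            inj := hinj
            integral := hint
            equivariant := ?_
            add_mem := hadd }⟩
  intro σ hσ m i
  refine heq (arithmeticGalois (modularFunctionFieldFull M') σ) (hI σ hσ) m (actE ℓ x hx σ m)
    (kap_actE ℓ x hx σ m) ?_ i
  show lp (rep ℓ x (actE ℓ x hx σ m)) = _
  rw [rep_actE, hlpσ]
  rfl

/-- **T1 HOPF-E.**  For every rational point `x` of `J₀(N)` and every prime `ℓ ∤ N`, the
extension `E_x` of `ℤ/ℓ` by `J₀(N)[ℓ]` (class = Kummer class of `x`) has a Hopf model over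
`ℤ_(ℓ)`. -/
theorem hopfModel_Ex (hℓN : ¬ ℓ ∣ N) :
    HopfModel ℓ (Ex ℓ x) (fun σ : GalQ => ⇑(actE ℓ x hx σ)) := by
  have : Finite (Ex ℓ x) := finite_Ex_JZero N ℓ x
  obtain ⟨L⟩ := exists_localCoordDatum_Ex N ℓ x hx hℓN
  obtain ⟨C⟩ := H679.unrStatementH679 ℓ (Ex ℓ x) _ (isContAddAction_Ex N ℓ x hx) L
  exact H15.ordStatement ℓ (Ex ℓ x) _
    (orderDatum_of_coordDatum (fun σ a b => map_add (actE ℓ x hx σ) a b) C)

end Main

end Fermat.Agent.S15.H946
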