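import Fermat.Agent.A3.H799.LocalDone

/-!
# S15 / DESC / T1 HOPF-E — the abstract LOCAL theorem for TORSOR SETS  (helper946)

`A3.H799.localStatement` gives integral, inertia-equivariant coordinates with algebraic addition on
every finite inertia-stable SUBGROUP of `Pic0`.  Row S15 (Eisenstein descent, blueprint v3, tower T1)
needs the same for the finite group

    E_x = (J[r] + ℤ y) / ℤ x,      x = r y a rational point,

which is not a subgroup of `Pic0`: it is a finite abelian group `M` with a map of REPRESENTATIVES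
`ρ : M → Pic0` which is additive only up to constants, `ρ (m + m') = ρ m + ρ m' + c (κ m) (κ m')`,
where `κ : M → Q` is a finite "grading" (for `E_x`: `κ (t + j y) = j`, `c j j' = - [j + j' ≥ r] x`).

`TorsorData` packages `(κ, ρ, c)`; `torsorLocal` is the generalisation of
`A3.H799.local_of_chart` (same proof: class indicators + chart coordinates on each class; the
constants are absorbed as constants of the chart).  For `Q = Unit`, `c = 0`, `ρ` the inclusion of a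
subgroup this is `A3.H799.LocalStatement`.

Everything here is sorry-free; inputs: CHART, KER-I, LIFTI of `A3/H799` (all proved on main).
-/

set_option autoImplicit false

noncomputable section

open AlgebraicCurve

namespace Fermat.Agent.S15.H946

open Fermat.Agent.A3.H799

universe u₁ u₂ u₃ u₄

variable {K : Type u₁} {F : Type u₂} {k : Type u₃} {Fk : Type u₄}
  [Field K] [Field F] [Algebra K F] [Field k] [Field Fk] [Algebra k Fk]

/-- **Torsor-set datum**: a finite abelian group `M` with representatives `ρ : M → Pic0` additive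
up to constants depending only on a grading `κ`. -/
structure TorsorData (M : Type) [AddCommGroup M] (K : Type u₁) (F : Type u₂)
    [Field K] [Field F] [Algebra K F] where
  /-- the grading set -/
  Q : Type
  /-- the grading -/
  κ : M → Q
  /-- the representatives -/
  ρ : M → Pic0 K F
  /-- grading and representative determine the element -/
  inj : ∀ m m' : M, κ m = κ m' → ρ m = ρ m' → m = m'
  /-- the grading of a sum -/
  μ : Q → Q → Q
  κ_add : ∀ m m' : M, κ (m + m') = μ (κ m) (κ m')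
  /-- the constants -/
  c : Q → Q → Pic0 K F
  ρ_add : ∀ m m' : M, ρ (m + m') = ρ m + ρ m' + c (κ m) (κ m')

/-- **Output of T1-ABS** (frozen): integral, inertia-equivariant, injective coordinates on `M` with
algebraic addition.  Same shape as `A3.H799.LocalStatement`, with `T` replaced by `(M, D)`. -/
def TorsorLocalStatement (K : Type u₁) (F : Type u₂) (k : Type u₃) (Fk : Type u₄)
    [Field K] [Field F] [Algebra K F] [Field k] [Field Fk] [Algebra k Fk]
    [IsAlgClosed K] [IsAlgClosed k] [CharZero K] : Prop :=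
  ∀ (𝓡 : GoodRed K F k Fk),
    (∀ a b : K, a ∈ 𝓡.V.nonunits → b ≠ 0 → ∃ n : ℕ, a ^ n / b ∈ 𝓡.V) →
    ∀ (M : Type) [AddCommGroup M] [Finite M] (D : TorsorData M K F),
      ∃ (ι : Type) (_ : Finite ι) (Ψ : M → ι → K),
        Function.Injective Ψ ∧ (∀ x i, Ψ x i ∈ 𝓡.V) ∧
        (∀ (g : SemilinearAut K F) (_ : g ∈ 𝓡.I) (m m' : M), D.κ m' = D.κ m →
          D.ρ m' = g • D.ρ m → ∀ i : ι, Ψ m' i = SemilinearAut.baseAut g (Ψ m i)) ∧
        ∀ i, (fun p : M × M => Ψ (p.1 + p.2) i) ∈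
          Algebra.adjoin 𝓡.V ({f | ∃ j, f = fun p : M × M => Ψ p.1 j} ∪
            {f | ∃ j, f = fun p : M × M => Ψ p.2 j})

section Classes

variable (𝓡 : GoodRed K F k Fk) {M : Type} [AddCommGroup M] (D : TorsorData M K F)

/-- Two elements are in the same class if they have the same grading and their representatives
are congruent modulo the kernel of reduction. -/
def clSetoid : Setoid M where
  r m m' := D.κ m = D.κ m' ∧ D.ρ m - D.ρ m' ∈ 𝓡.kerRed
  iseqv :=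
    { refl := fun m => ⟨rfl, by rw [sub_self]; exact zero_mem _⟩
      symm := fun {m m'} h => ⟨h.1.symm, by
        have := neg_mem h.2
        rwa [neg_sub] at this⟩
      trans := fun {m m' m''} h h' => ⟨h.1.trans h'.1, by
        have := add_mem h.2 h'.2
        rwa [sub_add_sub_cancel] at this⟩ }

/-- The type of classes. -/
abbrev Cl : Type := Quotient (clSetoid 𝓡 D)

/-- The class of an element. -/
def cl (m : M) : Cl 𝓡 D := Quotient.mk (clSetoid 𝓡 D) m

variable {𝓡 D}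

theorem cl_eq_iff (m m' : M) :
    cl 𝓡 D m = cl 𝓡 D m' ↔ D.κ m = D.κ m' ∧ D.ρ m - D.ρ m' ∈ 𝓡.kerRed :=
  Quotient.eq (r := clSetoid 𝓡 D)

theorem cl_out (c : Cl 𝓡 D) : cl 𝓡 D (Quotient.out c) = c := Quotient.out_eq c

theorem cl_add {m₁ m₁' m₂ m₂' : M} (h1 : cl 𝓡 D m₁ = cl 𝓡 D m₁')
    (h2 : cl 𝓡 D m₂ = cl 𝓡 D m₂') : cl 𝓡 D (m₁ + m₂) = cl 𝓡 D (m₁' + m₂') := by
  rw [cl_eq_iff] at h1 h2 ⊢
  refine ⟨by rw [D.κ_add, D.κ_add, h1.1, h2.1], ?_⟩
  rw [D.ρ_add, D.ρ_add, h1.1, h2.1]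
  have h : D.ρ m₁ + D.ρ m₂ + D.c (D.κ m₁') (D.κ m₂') -
      (D.ρ m₁' + D.ρ m₂' + D.c (D.κ m₁') (D.κ m₂')) =
      (D.ρ m₁ - D.ρ m₁') + (D.ρ m₂ - D.ρ m₂') := by abel
  rw [h]
  exact add_mem h1.2 h2.2

instance [Finite M] : Finite (Cl 𝓡 D) := Quotient.finite _

end Classes

section Coordinates

variable {𝓡 : GoodRed K F k Fk} {M : Type} [AddCommGroup M] {D : TorsorData M K F} {n : ℕ}
  (z : 𝓡.kerRed → Fin n → IsLocalRing.maximalIdeal 𝓡.V) (yt : Cl 𝓡 D → Pic0 K F)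
  (hmem : ∀ (m : M) (c : Cl 𝓡 D), cl 𝓡 D m = c → D.ρ m - yt c ∈ 𝓡.kerRed)

open Classical in
/-- The coordinates: class indicators and chart coordinates on each class. -/
def psiT (m : M) : (Cl 𝓡 D) ⊕ (Cl 𝓡 D) × Fin n → K
  | Sum.inl c => if cl 𝓡 D m = c then 1 else 0
  | Sum.inr (c, i) =>
      if h : cl 𝓡 D m = c then
        (((z ⟨D.ρ m - yt c, hmem m c h⟩ i : IsLocalRing.maximalIdeal 𝓡.V) : 𝓡.V) : K)
      else 0

open Classical in
theorem psiT_inl (m : M) (c : Cl 𝓡 D) :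
    psiT z yt hmem m (Sum.inl c) = if cl 𝓡 D m = c then 1 else 0 := by
  simp only [psiT]

open Classical in
theorem psiT_inr (m : M) (c : Cl 𝓡 D) (i : Fin n) :
    psiT z yt hmem m (Sum.inr (c, i)) =
      if h : cl 𝓡 D m = c then
        (((z ⟨D.ρ m - yt c, hmem m c h⟩ i : IsLocalRing.maximalIdeal 𝓡.V) : 𝓡.V) : K)
      else 0 := by
  simp only [psiT]

theorem psiT_inr_pos (m : M) (c : Cl 𝓡 D) (i : Fin n) (h : cl 𝓡 D m = c) :
    psiT z yt hmem m (Sum.inr (c, i)) =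
      (((z ⟨D.ρ m - yt c, hmem m c h⟩ i : IsLocalRing.maximalIdeal 𝓡.V) : 𝓡.V) : K) := by
  rw [psiT_inr, dif_pos h]

theorem psiT_inr_neg (m : M) (c : Cl 𝓡 D) (i : Fin n) (h : ¬ cl 𝓡 D m = c) :
    psiT z yt hmem m (Sum.inr (c, i)) = 0 := by
  rw [psiT_inr, dif_neg h]

theorem psiT_mem (m : M) (j : (Cl 𝓡 D) ⊕ (Cl 𝓡 D) × Fin n) :
    psiT z yt hmem m j ∈ 𝓡.V := by
  classical
  rcases j with c | ⟨c, i⟩
  · rw [psiT_inl]
    split_ifs
    · exact 𝓡.V.one_mem
    · exact 𝓡.V.zero_mem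
  · rw [psiT_inr]
    split_ifs
    · exact Subtype.coe_prop _
    · exact 𝓡.V.zero_mem

theorem psiT_injective (hz : Function.Injective z) : Function.Injective (psiT z yt hmem) := by
  classical
  intro x x' h
  have h1 := congrFun h (Sum.inl (cl 𝓡 D x))
  rw [psiT_inl, psiT_inl, if_pos rfl] at h1
  have hc : cl 𝓡 D x' = cl 𝓡 D x := by
    by_contra hne
    rw [if_neg hne] at h1
    exact one_ne_zero h1
  have h2 : z ⟨D.ρ x - yt (cl 𝓡 D x), hmem x _ rfl⟩ =
      z ⟨D.ρ x' - yt (cl 𝓡 D x), hmem x' _ hc⟩ := by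
    funext i
    have h3 := congrFun h (Sum.inr (cl 𝓡 D x, i))
    rw [psiT_inr_pos z yt hmem x _ i rfl, psiT_inr_pos z yt hmem x' _ i hc] at h3
    exact Subtype.ext (Subtype.ext h3)
  have h4 := congrArg Subtype.val (hz h2)
  simp only [sub_left_inj] at h4
  exact D.inj x x' ((cl_eq_iff x' x).1 hc).1.symm h4

theorem psiT_smul (hker : ∀ g ∈ 𝓡.I, ∀ x : Pic0 K F, g • x - x ∈ 𝓡.kerRed)
    (hyI : ∀ c, ∀ g ∈ 𝓡.I, g • yt c = yt c)
    (hzeq : ∀ g ∈ 𝓡.I, ∀ (u : 𝓡.kerRed) (hgu : g • (u : Pic0 K F) ∈ 𝓡.kerRed) (i : Fin n),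
      (((z ⟨g • (u : Pic0 K F), hgu⟩ i : IsLocalRing.maximalIdeal 𝓡.V) : 𝓡.V) : K) =
        SemilinearAut.baseAut g (((z u i : IsLocalRing.maximalIdeal 𝓡.V) : 𝓡.V) : K))
    (g : SemilinearAut K F) (hg : g ∈ 𝓡.I) (m m' : M) (hκ : D.κ m' = D.κ m)
    (hρ : D.ρ m' = g • D.ρ m)
    (j : (Cl 𝓡 D) ⊕ (Cl 𝓡 D) × Fin n) :
    psiT z yt hmem m' j = SemilinearAut.baseAut g (psiT z yt hmem m j) := by
  classical
  have hmk : cl 𝓡 D m' = cl 𝓡 D m := by
    rw [cl_eq_iff]
    refine ⟨hκ, ?_⟩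
    rw [hρ]
    exact hker g hg _
  rcases j with c | ⟨c, i⟩
  · rw [psiT_inl, psiT_inl, hmk]
    split_ifs
    · rw [map_one]
    · rw [map_zero]
  · by_cases h : cl 𝓡 D m = c
    · have h' : cl 𝓡 D m' = c := by rw [hmk, h]
      rw [psiT_inr_pos z yt hmem _ c i h', psiT_inr_pos z yt hmem m c i h]
      have heq : g • (D.ρ m - yt c) = D.ρ m' - yt c := by
        rw [smul_sub, hyI c g hg, hρ]
      have hgu : g • (D.ρ m - yt c) ∈ 𝓡.kerRed := by
        rw [heq]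
        exact hmem _ c h'
      rw [← hzeq g hg ⟨D.ρ m - yt c, hmem m c h⟩ hgu i]
      congr 4
      exact heq.symm
    · have h' : ¬ cl 𝓡 D m' = c := by
        rw [hmk]; exact h
      rw [psiT_inr_neg z yt hmem _ c i h', psiT_inr_neg z yt hmem m c i h, map_zero]

open Classical in
/-- Partition of unity by the boxes. -/
theorem mem_of_forall_boxT [Finite M] (𝒜 : Subalgebra 𝓡.V (M × M → K)) (G : M × M → K)
    (h : ∀ c₁ c₂ : Cl 𝓡 D, (fun p : M × M =>
      ((if cl 𝓡 D p.1 = c₁ then (1 : K) else 0) *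
        (if cl 𝓡 D p.2 = c₂ then (1 : K) else 0)) * G p) ∈ 𝒜) :
    G ∈ 𝒜 := by
  have : Fintype (Cl 𝓡 D) := Fintype.ofFinite _
  have hG : G = ∑ c₁ : Cl 𝓡 D, ∑ c₂ : Cl 𝓡 D, (fun p : M × M =>
      ((if cl 𝓡 D p.1 = c₁ then (1 : K) else 0) *
        (if cl 𝓡 D p.2 = c₂ then (1 : K) else 0)) * G p) := by
    funext p
    simp only [Finset.sum_apply]
    simp only [← Finset.sum_mul, ← Finset.mul_sum]
    simp
  rw [hG]
  exact Subalgebra.sum_mem _ fun c₁ _ => Subalgebra.sum_mem _ fun c₂ _ => h c₁ c₂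

open Classical in
theorem psiT_add_mem [Finite M]
    (hzadd : ∀ (Λ : Subalgebra 𝓡.V (M × M → 𝓡.V)) (a b : M × M → 𝓡.kerRed),
      (∀ j, (fun τ => ((z (a τ) j : IsLocalRing.maximalIdeal 𝓡.V) : 𝓡.V)) ∈ Λ) →
      (∀ j, (fun τ => ((z (b τ) j : IsLocalRing.maximalIdeal 𝓡.V) : 𝓡.V)) ∈ Λ) →
      ∀ i, (fun τ => ((z (a τ + b τ) i : IsLocalRing.maximalIdeal 𝓡.V) : 𝓡.V)) ∈ Λ)
    (j : (Cl 𝓡 D) ⊕ (Cl 𝓡 D) × Fin n) :
    (fun p : M × M => psiT z yt hmem (p.1 + p.2) j) ∈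
      Algebra.adjoin 𝓡.V ({f | ∃ j, f = fun p : M × M => psiT z yt hmem p.1 j} ∪
        {f | ∃ j, f = fun p : M × M => psiT z yt hmem p.2 j}) := by
  set 𝒜 := Algebra.adjoin 𝓡.V ({f | ∃ j, f = fun p : M × M => psiT z yt hmem p.1 j} ∪
        {f | ∃ j, f = fun p : M × M => psiT z yt hmem p.2 j}) with h𝒜
  have g1 : ∀ j, (fun p : M × M => psiT z yt hmem p.1 j) ∈ 𝒜 :=
    fun j => Algebra.subset_adjoin (Or.inl ⟨j, rfl⟩)
  have g2 : ∀ j, (fun p : M × M => psiT z yt hmem p.2 j) ∈ 𝒜 :=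
    fun j => Algebra.subset_adjoin (Or.inr ⟨j, rfl⟩)
  -- the class of a sum on a box
  let s : Cl 𝓡 D → Cl 𝓡 D → Cl 𝓡 D := fun c₁ c₂ =>
    cl 𝓡 D (Quotient.out c₁ + Quotient.out c₂)
  have hs : ∀ (c₁ c₂ : Cl 𝓡 D) (p : M × M), cl 𝓡 D p.1 = c₁ → cl 𝓡 D p.2 = c₂ →
      cl 𝓡 D (p.1 + p.2) = s c₁ c₂ := by
    intro c₁ c₂ p h1 h2
    exact cl_add (h1.trans (cl_out c₁).symm) (h2.trans (cl_out c₂).symm)
  -- the box idempotents
  have hbox : ∀ c₁ c₂ : Cl 𝓡 D, (fun p : M × M =>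
      (if cl 𝓡 D p.1 = c₁ then (1 : K) else 0) *
        (if cl 𝓡 D p.2 = c₂ then (1 : K) else 0)) ∈ 𝒜 := by
    intro c₁ c₂
    have := 𝒜.mul_mem (g1 (Sum.inl c₁)) (g2 (Sum.inl c₂))
    simp only [psiT_inl] at this
    exact this
  have hidem : ∀ c₁ c₂ : Cl 𝓡 D, (fun p : M × M =>
      (if cl 𝓡 D p.1 = c₁ then (1 : K) else 0) *
        (if cl 𝓡 D p.2 = c₂ then (1 : K) else 0)) *
      (fun p : M × M =>
      (if cl 𝓡 D p.1 = c₁ then (1 : K) else 0) *
        (if cl 𝓡 D p.2 = c₂ then (1 : K) else 0)) =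
      (fun p : M × M =>
      (if cl 𝓡 D p.1 = c₁ then (1 : K) else 0) *
        (if cl 𝓡 D p.2 = c₂ then (1 : K) else 0)) := by
    intro c₁ c₂
    funext p
    simp only [Pi.mul_apply]
    split_ifs <;> simp
  -- the key lemma on a box
  have hkey : ∀ (c₁ c₂ : Cl 𝓡 D) (i : Fin n), (fun p : M × M =>
      ((if cl 𝓡 D p.1 = c₁ then (1 : K) else 0) *
        (if cl 𝓡 D p.2 = c₂ then (1 : K) else 0)) *
        psiT z yt hmem (p.1 + p.2) (Sum.inr (s c₁ c₂, i))) ∈ 𝒜 := by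
    intro c₁ c₂ i
    set Λ := boxAlg 𝒜 _ (hidem c₁ c₂) (hbox c₁ c₂) with hΛ
    -- the families
    let a : M × M → 𝓡.kerRed := fun p =>
      if h : cl 𝓡 D p.1 = c₁ then ⟨D.ρ p.1 - yt c₁, hmem p.1 c₁ h⟩ else 0
    let b : M × M → 𝓡.kerRed := fun p =>
      if h : cl 𝓡 D p.2 = c₂ then ⟨D.ρ p.2 - yt c₂, hmem p.2 c₂ h⟩ else 0
    have hc₀ : D.c (D.κ (Quotient.out c₁)) (D.κ (Quotient.out c₂)) + yt c₁ + yt c₂ -
        yt (s c₁ c₂) ∈ 𝓡.kerRed := by
      have h1 := hmem (Quotient.out c₁) c₁ (cl_out c₁)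
      have h2 := hmem (Quotient.out c₂) c₂ (cl_out c₂)
      have h3 := hmem (Quotient.out c₁ + Quotient.out c₂) (s c₁ c₂) rfl
      have h4 : D.c (D.κ (Quotient.out c₁)) (D.κ (Quotient.out c₂)) + yt c₁ + yt c₂ -
          yt (s c₁ c₂) =
          (D.ρ (Quotient.out c₁ + Quotient.out c₂) - yt (s c₁ c₂)) -
            (D.ρ (Quotient.out c₁) - yt c₁) - (D.ρ (Quotient.out c₂) - yt c₂) := by
        rw [D.ρ_add]
        abel
      rw [h4]
      exact sub_mem (sub_mem h3 h1) h2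
    let c₀ : M × M → 𝓡.kerRed := fun _ =>
      ⟨D.c (D.κ (Quotient.out c₁)) (D.κ (Quotient.out c₂)) + yt c₁ + yt c₂ - yt (s c₁ c₂), hc₀⟩
    have ha : ∀ j, (fun τ => ((z (a τ) j : IsLocalRing.maximalIdeal 𝓡.V) : 𝓡.V)) ∈ Λ := by
      intro j
      rw [hΛ, mem_boxAlg]
      have := 𝒜.mul_mem (g2 (Sum.inl c₂)) (g1 (Sum.inr (c₁, j)))
      convert this using 1
      funext p
      simp only [Pi.mul_apply, psiT_inl]
      by_cases h : cl 𝓡 D p.1 = c₁
      · rw [psiT_inr_pos z yt hmem p.1 c₁ j h, if_pos h, one_mul]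
        simp only [a, dif_pos h]
        rfl
      · rw [psiT_inr_neg z yt hmem p.1 c₁ j h, if_neg h]
        simp
    have hb : ∀ j, (fun τ => ((z (b τ) j : IsLocalRing.maximalIdeal 𝓡.V) : 𝓡.V)) ∈ Λ := by
      intro j
      rw [hΛ, mem_boxAlg]
      have := 𝒜.mul_mem (g1 (Sum.inl c₁)) (g2 (Sum.inr (c₂, j)))
      convert this using 1
      funext p
      simp only [Pi.mul_apply, psiT_inl]
      by_cases h : cl 𝓡 D p.2 = c₂
      · rw [psiT_inr_pos z yt hmem p.2 c₂ j h, if_pos h, mul_one]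
        simp only [b, dif_pos h]
        rfl
      · rw [psiT_inr_neg z yt hmem p.2 c₂ j h, if_neg h]
        simp
    have hc : ∀ j, (fun τ => ((z (c₀ τ) j : IsLocalRing.maximalIdeal 𝓡.V) : 𝓡.V)) ∈ Λ := by
      intro j
      exact Λ.algebraMap_mem ((z ⟨_, hc₀⟩ j : IsLocalRing.maximalIdeal 𝓡.V) : 𝓡.V)
    have hab := hzadd Λ a b ha hb
    have habc := hzadd Λ (fun τ => a τ + b τ) c₀ hab hc i
    rw [hΛ, mem_boxAlg] at habc
    convert habc using 1
    funext p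
    by_cases h1 : cl 𝓡 D p.1 = c₁
    · by_cases h2 : cl 𝓡 D p.2 = c₂
      · have h12 : cl 𝓡 D (p.1 + p.2) = s c₁ c₂ := hs c₁ c₂ p h1 h2
        have hκ1 : D.κ p.1 = D.κ (Quotient.out c₁) :=
          ((cl_eq_iff _ _).1 (h1.trans (cl_out c₁).symm)).1
        have hκ2 : D.κ p.2 = D.κ (Quotient.out c₂) :=
          ((cl_eq_iff _ _).1 (h2.trans (cl_out c₂).symm)).1
        rw [psiT_inr_pos z yt hmem _ _ i h12]
        congr 5
        simp only [a, b, c₀, dif_pos h1, dif_pos h2, AddSubgroup.coe_add]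
        rw [D.ρ_add, hκ1, hκ2]
        abel
      · simp [h2]
    · simp [h1]
  -- conclusion
  apply mem_of_forall_boxT
  intro c₁ c₂
  rcases j with c | ⟨c, i⟩
  · have hfun : (fun p : M × M =>
        ((if cl 𝓡 D p.1 = c₁ then (1 : K) else 0) *
          (if cl 𝓡 D p.2 = c₂ then (1 : K) else 0)) *
          psiT z yt hmem (p.1 + p.2) (Sum.inl c)) =
        if s c₁ c₂ = c then (fun p : M × M =>
          (if cl 𝓡 D p.1 = c₁ then (1 : K) else 0) *
            (if cl 𝓡 D p.2 = c₂ then (1 : K) else 0)) else 0 := by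
      funext p
      rw [psiT_inl]
      by_cases hcc : s c₁ c₂ = c
      · rw [if_pos hcc]
        by_cases h1 : cl 𝓡 D p.1 = c₁
        · by_cases h2 : cl 𝓡 D p.2 = c₂
          · rw [hs c₁ c₂ p h1 h2, if_pos hcc]
            simp
          · simp [h2]
        · simp [h1]
      · rw [if_neg hcc]
        by_cases h1 : cl 𝓡 D p.1 = c₁
        · by_cases h2 : cl 𝓡 D p.2 = c₂
          · rw [hs c₁ c₂ p h1 h2, if_neg hcc]
            simp
          · simp [h2]
        · simp [h1]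
    rw [hfun]
    split_ifs
    · exact hbox c₁ c₂
    · exact 𝒜.zero_mem
  · by_cases hcc : s c₁ c₂ = c
    · subst hcc
      exact hkey c₁ c₂ i
    · have hfun : (fun p : M × M =>
        ((if cl 𝓡 D p.1 = c₁ then (1 : K) else 0) *
          (if cl 𝓡 D p.2 = c₂ then (1 : K) else 0)) *
          psiT z yt hmem (p.1 + p.2) (Sum.inr (c, i))) = 0 := by
        funext p
        by_cases h1 : cl 𝓡 D p.1 = c₁
        · by_cases h2 : cl 𝓡 D p.2 = c₂
          · have h12 : ¬ cl 𝓡 D (p.1 + p.2) = c := by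
              rw [hs c₁ c₂ p h1 h2]; exact hcc
            rw [psiT_inr_neg z yt hmem _ _ i h12]
            simp
          · simp [h2]
        · simp [h1]
      rw [hfun]
      exact 𝒜.zero_mem

end Coordinates

section Main

variable [IsAlgClosed K] [IsAlgClosed k] [CharZero K]

/-- **Assembly for torsor sets.**  CHART + KER-I + LIFTI ⟹ `TorsorLocalStatement`. -/
theorem torsorLocal_of_chart (hchart : ChartStatement.{u₁, u₂, u₃, u₄, 0} K F k Fk)
    (hker : KerInertiaStatement K F k Fk) (hlift : LiftiStatement K F k Fk) :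
    TorsorLocalStatement K F k Fk := by
  classical
  intro 𝓡 _ M _ _ D
  obtain ⟨n, z, hzinj, hzeq, hzadd⟩ := hchart 𝓡
  have hl : ∀ c : Cl 𝓡 D, ∃ y : Pic0 K F, (∀ g ∈ 𝓡.I, g • y = y) ∧
      D.ρ (Quotient.out c) - y ∈ 𝓡.kerRed := fun c => hlift 𝓡 _
  choose yt hyI hyJ using hl
  have hmem : ∀ (m : M) (c : Cl 𝓡 D), cl 𝓡 D m = c → D.ρ m - yt c ∈ 𝓡.kerRed := by
    intro m c h
    have h1 : D.ρ m - D.ρ (Quotient.out c) ∈ 𝓡.kerRed :=
      ((cl_eq_iff _ _).1 (h.trans (cl_out c).symm)).2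
    have h2 : D.ρ m - yt c = (D.ρ m - D.ρ (Quotient.out c)) +
        (D.ρ (Quotient.out c) - yt c) := by abel
    rw [h2]
    exact add_mem h1 (hyJ c)
  -- the index type
  have : Finite ((Cl 𝓡 D) ⊕ (Cl 𝓡 D) × Fin n) := inferInstance
  obtain ⟨m, ⟨e⟩⟩ := Finite.exists_equiv_fin ((Cl 𝓡 D) ⊕ (Cl 𝓡 D) × Fin n)
  refine ⟨Fin m, inferInstance, fun x i => psiT z yt hmem x (e.symm i), ?_, ?_, ?_, ?_⟩
  · intro x x' h
    apply psiT_injective z yt hmem hzinj
    funext j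
    have := congrFun h (e j)
    simpa using this
  · intro x i
    exact psiT_mem z yt hmem x _
  · intro g hg x x' hκ hρ i
    exact psiT_smul z yt hmem (hker 𝓡) hyI hzeq g hg x x' hκ hρ _
  · intro i
    have := psiT_add_mem z yt hmem (fun Λ a b => hzadd (M × M) Λ a b) (e.symm i)
    refine Algebra.adjoin_mono ?_ this
    rintro f (⟨j, rfl⟩ | ⟨j, rfl⟩)
    · left
      exact ⟨e j, by simp⟩
    · right
      exact ⟨e j, by simp⟩

/-- **T1-ABS, unconditional.**  Every torsor-set datum over an abstract good reduction datum has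
integral, inertia-equivariant, injective coordinates with algebraic addition. -/
theorem torsorLocal : TorsorLocalStatement K F k Fk :=
  torsorLocal_of_chart (chartStatement_of_det Fermat.Agent.A3.H255.Det.detStatement)
    Fermat.Agent.A3.H555.kerInertiaStatement
    (Fermat.Agent.A3.H555.liftiStatement_of_disc (Fermat.Agent.A3.H75.discStatement K F k Fk)
      Fermat.Agent.A3.H555.discEquivStatement)

end Main

end Fermat.Agent.S15.H946
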